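import Fermat.Agent.NoetherProblem.Local
import Mathlib.Topology.Algebra.MvPolynomial

/-!
# A parametrisation gives a global cyclic extension with given behaviour at `q`

The parameters of a shifted tuple lie in `ℚ_q`. Rational parameters near them give a polynomial over
`ℚ` with one root near each entry; these roots move along with Frobenius and are fixed by inertia.
-/

set_option autoImplicit false
set_option linter.unusedSectionVars false

noncomputable section

local notation "Qb" => AlgebraicClosure ℚ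
local notation "GQ" => AlgebraicClosure ℚ ≃ₐ[ℚ] AlgebraicClosure ℚ

namespace FA.NoetherProblem

open FA.GalCoh Polynomial
open Filter hiding map
open scoped Topology

theorem pow_card_le_norm_prod {K R : Type*} [NormedField K] {δ : ℝ} (hδ : 0 ≤ δ) (v : R → K)
    (s : Multiset R) (h : ∀ r ∈ s, δ ≤ ‖v r‖) : δ ^ Multiset.card s ≤ ‖(s.map v).prod‖ := by
  induction s using Multiset.induction with
  | empty => simp
  | cons r s ih =>
    rw [Multiset.card_cons, Multiset.map_cons, Multiset.prod_cons, norm_mul, pow_succ']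
    exact mul_le_mul (h r (Multiset.mem_cons_self _ _))
      (ih fun x hx => h x (Multiset.mem_cons_of_mem hx)) (pow_nonneg hδ _) (norm_nonneg _)

section Eval

variable {ι : Type} {K : Type*} [Field K] [CharZero K] {s : MvPolynomial ι ℚ}

/-- Evaluation of the localised ring at a point. -/
def evAt (x : ι → K) (hx : MvPolynomial.aeval x s ≠ 0) : Localization.Away s →+* K :=
  IsLocalization.Away.lift s (g := (MvPolynomial.aeval x).toRingHom) (IsUnit.mk0 _ hx)

theorem evAt_algebraMap (x : ι → K) (hx : MvPolynomial.aeval x s ≠ 0) (A : MvPolynomial ι ℚ) :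
    evAt x hx (algebraMap _ _ A) = MvPolynomial.aeval x A :=
  IsLocalization.Away.lift_eq _ _ _

theorem eq_evAt {x : ι → K} (hx : MvPolynomial.aeval x s ≠ 0) {e : Localization.Away s →+* K}
    (h : ∀ i, e (algebraMap (MvPolynomial ι ℚ) _ (MvPolynomial.X i)) = x i) :
    e = evAt x hx := by
  refine IsLocalization.ringHom_ext (Submonoid.powers s)
    (MvPolynomial.ringHom_ext (fun r => (DFunLike.congr_fun (Subsingleton.elim
      ((e.comp (algebraMap _ _)).comp MvPolynomial.C)
      (((evAt x hx).comp (algebraMap _ _)).comp MvPolynomial.C)) r)) fun i => ?_)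
  rw [RingHom.comp_apply, RingHom.comp_apply, h, evAt_algebraMap, MvPolynomial.aeval_X]

theorem comp_evAt {L : Type*} [Field L] [CharZero L] (φ : K →+* L) {x : ι → K}
    (hx : MvPolynomial.aeval x s ≠ 0) (hx' : MvPolynomial.aeval (fun i => φ (x i)) s ≠ 0) :
    φ.comp (evAt x hx) = evAt (fun i => φ (x i)) hx' :=
  eq_evAt hx' fun i => by rw [RingHom.comp_apply, evAt_algebraMap, MvPolynomial.aeval_X]

theorem aeval_comp_hom {L : Type*} [Field L] [CharZero L] (φ : K →+* L) (x : ι → K)
    (A : MvPolynomial ι ℚ) :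
    MvPolynomial.aeval (fun i => φ (x i)) A = φ (MvPolynomial.aeval x A) :=
  (DFunLike.congr_fun (MvPolynomial.comp_aeval (f := x) φ.toRatAlgHom) A).symm

end Eval

variable {n : ℕ} [NeZero n] {ι : Type} [Finite ι] {q : ℕ} [hq : Fact q.Prime]

theorem continuous_aeval_padic (A : MvPolynomial ι ℚ) :
    Continuous fun x : ι → ℚ_[q] => MvPolynomial.aeval x A := by
  simp only [MvPolynomial.aeval_def, ← MvPolynomial.eval_map]
  exact MvPolynomial.continuous_eval _

/-- The value of a polynomial with localised coefficients is continuous in both arguments. -/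
theorem exists_nhds_eval_close {s : MvPolynomial ι ℚ} (G : (Localization.Away s)[X])
    (x₀ : ι → ℚ_[q]) (h₀ : MvPolynomial.aeval x₀ s ≠ 0) (y₀ : PadicAlgCl q) {ε : ℝ} (hε : 0 < ε) :
    ∃ W ∈ 𝓝 (x₀, y₀), ∀ z : (ι → ℚ_[q]) × PadicAlgCl q, z ∈ W →
      ∀ hz : MvPolynomial.aeval z.1 s ≠ 0,
      ‖G.eval₂ ((algebraMap ℚ_[q] (PadicAlgCl q)).comp (evAt z.1 hz)) z.2 -
        G.eval₂ ((algebraMap ℚ_[q] (PadicAlgCl q)).comp (evAt x₀ h₀)) y₀‖ < ε := by
  have hco : ∀ k, ∃ (A : MvPolynomial ι ℚ) (e : ℕ), ∀ x (hx : MvPolynomial.aeval x s ≠ 0),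
      evAt (K := ℚ_[q]) x hx (G.coeff k) =
        MvPolynomial.aeval x A / MvPolynomial.aeval x s ^ e := fun k => by
    obtain ⟨⟨A, ⟨-, e, rfl⟩⟩, h⟩ := IsLocalization.surj (Submonoid.powers s) (G.coeff k)
    refine ⟨A, e, fun x hx => ?_⟩
    have h1 := congrArg (evAt x hx) h
    rw [map_mul, evAt_algebraMap, evAt_algebraMap, map_pow] at h1
    rw [← h1, mul_div_cancel_right₀ _ (pow_ne_zero _ hx)]
  choose A e hA using hco
  let H : (ι → ℚ_[q]) × PadicAlgCl q → PadicAlgCl q := fun z =>
    ∑ k ∈ Finset.range (G.natDegree + 1), algebraMap ℚ_[q] (PadicAlgCl q)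
      (MvPolynomial.aeval z.1 (A k) / MvPolynomial.aeval z.1 s ^ e k) * z.2 ^ k
  have hH : ∀ (z : (ι → ℚ_[q]) × PadicAlgCl q) (hz : MvPolynomial.aeval z.1 s ≠ 0),
      G.eval₂ ((algebraMap ℚ_[q] (PadicAlgCl q)).comp (evAt (s := s) z.1 hz)) z.2 = H z :=
      fun z hz => by
    rw [eval₂_eq_sum_range]
    simp only [H, RingHom.comp_apply, hA]
  have hc : ContinuousAt H (x₀, y₀) := by
    refine tendsto_finsetSum _ fun k _ => ?_
    refine ((continuous_algebraMap ℚ_[q] (PadicAlgCl q)).continuousAt.comp ?_).mul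
      (continuous_snd.pow k).continuousAt
    exact ((continuous_aeval_padic (A k)).comp continuous_fst).continuousAt.div
      (((continuous_aeval_padic s).comp continuous_fst).pow _).continuousAt (pow_ne_zero _ h₀)
  refine ⟨{z | dist (H z) (H (x₀, y₀)) < ε}, Metric.tendsto_nhds.1 hc ε hε, fun z hz hne => ?_⟩
  rw [hH z hne, hH (x₀, y₀) h₀, ← dist_eq_norm]
  exact hz

/-- The local point. -/
theorem exists_local_point (M : RatModel n ι) :
    ∃ (a : ZMod n → PadicAlgCl q) (x₀ : ι → ℚ_[q]) (h₀ : MvPolynomial.aeval x₀ M.s ≠ 0),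
      Function.Injective a ∧ (∀ g, frobL q (a g) = a (g + 1)) ∧
      (∀ σ : LG q, σ (unitRoot n q) = unitRoot n q → ∀ g, σ (a g) = a g) ∧
      (∀ g, M.f.eval₂ ((algebraMap ℚ_[q] (PadicAlgCl q)).comp (evAt x₀ h₀)) (a g) = 0) ∧
      ∀ g, M.p.eval₂ ((algebraMap ℚ_[q] (PadicAlgCl q)).comp (evAt x₀ h₀)) (a g) = a (g + 1) := by
  classical
  -- the differences of the variables are not zero
  let Δ : VarRing n := ∏ gh ∈ Finset.univ.filter (fun gh : ZMod n × ZMod n => gh.1 ≠ gh.2),
    (MvPolynomial.X gh.1 - MvPolynomial.X gh.2)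
  have hΔ : Δ ≠ 0 := Finset.prod_ne_zero_iff.2 fun gh hgh => sub_ne_zero.2
    (MvPolynomial.X_injective.ne (Finset.mem_filter.1 hgh).2)
  obtain ⟨c, hc⟩ := exists_aeval_frobTuple_ne_zero (q := q) (mul_ne_zero M.d_ne hΔ)
  rw [map_mul, mul_ne_zero_iff] at hc
  obtain ⟨hd, hdel⟩ := hc
  set a := frobTuple n q c with ha
  have hinj : Function.Injective a := fun g h e => by
    by_contra hne
    refine hdel ?_
    rw [map_prod]
    exact Finset.prod_eq_zero (i := (g, h)) (Finset.mem_filter.2 ⟨Finset.mem_univ _, hne⟩)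
      (by rw [map_sub, MvPolynomial.aeval_X, MvPolynomial.aeval_X, e, sub_self])
  have hshift : ∀ A : VarRing n, MvPolynomial.aeval a (MvPolynomial.rename (· + 1) A) =
      frobL q (MvPolynomial.aeval a A) := fun A => by
    rw [MvPolynomial.aeval_rename]
    exact (congrArg (fun f => MvPolynomial.aeval f A)
      (funext fun g => (frobL_frobTuple c g).symm)).trans
      (aeval_comp_hom (frobL q : PadicAlgCl q →+* PadicAlgCl q) a A)
  let evA : Localization.Away M.d →+* PadicAlgCl q := evAt a hd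
  let ev₀ : Localization.Away M.s →+* PadicAlgCl q := evA.comp M.ψ
  have hbase : ∀ z : Localization.Away M.s,
      ev₀ z ∈ Set.range (algebraMap ℚ_[q] (PadicAlgCl q)) := fun z => by
    refine mem_range_of_fixed (n := n) ?_ fun σ hσ => ?_
    · obtain ⟨⟨B, ⟨-, k, rfl⟩⟩, h⟩ := IsLocalization.surj (Submonoid.powers M.d) (M.ψ z)
      have h1 := congrArg (toFun M.d M.d_ne) h
      rw [map_mul, toFun_algebraMap, toFun_algebraMap] at h1
      have h2 := congrArg (shiftF n) h1
      rw [map_mul, M.inv, shiftF_algebraMap, shiftF_algebraMap] at h2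
      have h3 : MvPolynomial.rename (· + 1) (M.d ^ k) * B =
          MvPolynomial.rename (· + 1) B * M.d ^ k := by
        refine IsFractionRing.injective (VarRing n) (FunF n) ?_
        rw [map_mul, map_mul, ← h1, ← h2]
        ring
      have h4 := congrArg (MvPolynomial.aeval a) h3
      rw [map_mul, map_mul, hshift, hshift, map_pow] at h4
      have h5 : ev₀ z * MvPolynomial.aeval a M.d ^ k = MvPolynomial.aeval a B := by
        have h6 := congrArg evA h
        rwa [map_mul, evAt_algebraMap, evAt_algebraMap, map_pow] at h6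
      rw [← h5, map_mul, map_pow] at h4
      refine mul_right_cancel₀ (mul_ne_zero (pow_ne_zero k hd)
        (pow_ne_zero k ((_root_.map_ne_zero (frobL q)).2 hd))) ?_
      linear_combination -h4
    · refine DFunLike.congr_fun (?_ : ((σ : PadicAlgCl q →+* PadicAlgCl q).comp evA) = evA) _
      exact eq_evAt hd fun g => by
        show σ (evA _) = _
        rw [evAt_algebraMap, MvPolynomial.aeval_X]
        exact frobTuple_fixed hσ c g
  choose x₀ hx₀ using fun i => hbase (algebraMap (MvPolynomial ι ℚ) _ (MvPolynomial.X i))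
  have hev : ∀ A : MvPolynomial ι ℚ, ev₀ (algebraMap _ _ A) =
      algebraMap ℚ_[q] (PadicAlgCl q) (MvPolynomial.aeval x₀ A) := fun A => by
    rw [← aeval_comp_hom (algebraMap ℚ_[q] (PadicAlgCl q))]
    have e1 : (ev₀.comp (algebraMap _ _)).toRatAlgHom =
        MvPolynomial.aeval (fun i => algebraMap ℚ_[q] (PadicAlgCl q) (x₀ i)) :=
      MvPolynomial.algHom_ext fun i => by
        rw [MvPolynomial.aeval_X, hx₀]
        rfl
    exact DFunLike.congr_fun e1 A
  have h₀ : MvPolynomial.aeval x₀ M.s ≠ 0 := fun h => by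
    refine ((IsLocalization.Away.algebraMap_isUnit (S := Localization.Away M.s) M.s).map
      ev₀).ne_zero ?_
    rw [hev, h, map_zero]
  have heq : (algebraMap ℚ_[q] (PadicAlgCl q)).comp (evAt x₀ h₀) = ev₀ :=
    IsLocalization.ringHom_ext (Submonoid.powers M.s) (RingHom.ext fun A => by
      show algebraMap ℚ_[q] (PadicAlgCl q) (evAt x₀ h₀ (algebraMap _ _ A)) = ev₀ (algebraMap _ _ A)
      rw [evAt_algebraMap, hev])
  have hX : ∀ g, evA (algebraMap (VarRing n) _ (MvPolynomial.X g)) = a g := fun g => by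
    rw [evAt_algebraMap, MvPolynomial.aeval_X]
  refine ⟨a, x₀, h₀, hinj, frobL_frobTuple c, fun σ hσ g => frobTuple_fixed hσ c g,
    fun g => ?_, fun g => ?_⟩
  · rw [heq, ← eval_map, ← Polynomial.map_map, M.map_f, Polynomial.map_prod, eval_prod]
    exact Finset.prod_eq_zero (Finset.mem_univ g) (by
      rw [Polynomial.map_sub, map_X, map_C, eval_sub, eval_X, eval_C, hX, sub_self])
  · rw [heq, ← eval_map, ← Polynomial.map_map, ← hX g, eval_map, eval₂_at_apply, ← hX (g + 1)]
    exact congrArg evA (M.eval_p g)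

/-- **A parametrisation gives a character unramified at `q` sending Frobenius to a generator.** -/
theorem exists_character (M : RatModel n ι) :
    ∃ w : GQ →* Multiplicative (ZMod n), IsOpen (w.ker : Set GQ) ∧
      (∀ τ ∈ inertL q, w (loc q τ) = 1) ∧
      w (loc q (frobL q)) = Multiplicative.ofAdd 1 := by
  classical
  obtain ⟨a, x₀, h₀, hinj, hfrob, hfix, hroot, hstep⟩ := exists_local_point (q := q) M
  -- the separation of the entries
  obtain ⟨ε, hε, hsep⟩ : ∃ ε > 0, ∀ g h, g ≠ h → ε ≤ ‖a g - a h‖ := by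
    let S := (Finset.univ.filter fun gh : ZMod n × ZMod n => gh.1 ≠ gh.2).image
      fun gh => ‖a gh.1 - a gh.2‖
    have hne : (insert (1 : ℝ) S).Nonempty := Finset.insert_nonempty _ _
    refine ⟨(insert (1 : ℝ) S).min' hne, (Finset.lt_min'_iff _ hne).2 fun x hx => ?_,
      fun g h hgh => Finset.min'_le _ _ (Finset.mem_insert_of_mem (Finset.mem_image.2
        ⟨(g, h), Finset.mem_filter.2 ⟨Finset.mem_univ _, hgh⟩, rfl⟩))⟩
    rcases Finset.mem_insert.1 hx with rfl | hx
    · exact one_pos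
    · obtain ⟨gh, hgh, rfl⟩ := Finset.mem_image.1 hx
      exact norm_pos_iff.2 (sub_ne_zero.2 (hinj.ne (Finset.mem_filter.1 hgh).2))
  choose W hW hWp using fun g => exists_nhds_eval_close M.p x₀ h₀ (a g) hε
  choose U hU V hV hUV using fun g => mem_nhds_prod_iff.1 (hW g)
  choose r hr hrV using fun g => Metric.mem_nhds_iff.1 (hV g)
  obtain ⟨δ, hδ, hδε, hδr⟩ : ∃ δ > 0, δ ≤ ε ∧ ∀ g, δ ≤ r g := by
    have hne : (insert ε (Finset.univ.image r)).Nonempty := Finset.insert_nonempty _ _
    refine ⟨(insert ε (Finset.univ.image r)).min' hne, (Finset.lt_min'_iff _ hne).2 fun x hx => ?_,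
      Finset.min'_le _ _ (Finset.mem_insert_self _ _), fun g => Finset.min'_le _ _
        (Finset.mem_insert_of_mem (Finset.mem_image.2 ⟨g, Finset.mem_univ _, rfl⟩))⟩
    rcases Finset.mem_insert.1 hx with rfl | hx
    · exact hε
    · obtain ⟨g, -, rfl⟩ := Finset.mem_image.1 hx
      exact hr g
  -- the rational parameters
  have hsne : ∀ᶠ x in 𝓝 x₀, MvPolynomial.aeval x M.s ≠ 0 :=
    (continuous_aeval_padic M.s).continuousAt.eventually_ne h₀
  choose W' hW' hWf using fun g => exists_nhds_eval_close M.f x₀ h₀ (a g) (pow_pos hδ n)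
  have hfev : ∀ g, ∀ᶠ x in 𝓝 x₀, (x, a g) ∈ W' g := fun g =>
    (Continuous.prodMk_left (a g)).tendsto x₀ (hW' g)
  obtain ⟨x, ⟨t, rfl⟩, hne, hfall, hUall⟩ : ∃ x,
      x ∈ Set.range (fun (t : ι → ℚ) i => (t i : ℚ_[q])) ∧
      MvPolynomial.aeval x M.s ≠ 0 ∧
      (∀ g, ∀ hx : MvPolynomial.aeval x M.s ≠ 0,
        ‖M.f.eval₂ ((algebraMap ℚ_[q] (PadicAlgCl q)).comp (evAt x hx)) (a g)‖ < δ ^ n) ∧
      ∀ g, x ∈ U g := by
    have h : ∀ᶠ x in 𝓝 x₀, MvPolynomial.aeval x M.s ≠ 0 ∧ (∀ g, (x, a g) ∈ W' g) ∧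
        ∀ g, x ∈ U g := hsne.and ((eventually_all.2 hfev).and (eventually_all.2 hU))
    obtain ⟨O, hO, hOo, hmem⟩ := eventually_nhds_iff.1 h
    obtain ⟨t, ht⟩ := (DenseRange.piMap (f := fun _ : ι => ((↑) : ℚ → ℚ_[q]))
      fun _ => Padic.denseRange_ratCast q).exists_mem_open hOo ⟨x₀, hmem⟩
    obtain ⟨h1, h2, h3⟩ := hO _ ht
    exact ⟨_, ⟨t, rfl⟩, h1, fun g hx => by
      have h4 := hWf g _ (h2 g) hx
      rw [hroot, sub_zero] at h4
      exact h4, h3⟩
  have hts : MvPolynomial.aeval t M.s ≠ 0 := fun h => hne (by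
    show MvPolynomial.aeval (fun i => Rat.castHom ℚ_[q] (t i)) M.s = 0
    exact (aeval_comp_hom (Rat.castHom ℚ_[q]) t M.s).trans
      ((congrArg (Rat.castHom ℚ_[q]) h).trans (map_zero _)))
  let ev : Localization.Away M.s →+* ℚ := evAt t hts
  have hev : (algebraMap ℚ_[q] (PadicAlgCl q)).comp (evAt _ hne) =
      ((padicEmbedding q : Qb →+* PadicAlgCl q).comp (algebraMap ℚ Qb)).comp ev := by
    rw [show ((padicEmbedding q : Qb →+* PadicAlgCl q).comp (algebraMap ℚ Qb)) =
        (algebraMap ℚ_[q] (PadicAlgCl q)).comp (Rat.castHom ℚ_[q]) from Subsingleton.elim _ _,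
      RingHom.comp_assoc, comp_evAt (Rat.castHom ℚ_[q]) hts hne]
    rfl
  let f₁ : ℚ[X] := M.f.map ev
  let p₁ : ℚ[X] := M.p.map ev
  have hf₁ : f₁.Monic := M.monic.map _
  have hdeg : f₁.natDegree = n := by
    have : Nontrivial (Localization.Away M.d) := (toFun M.d M.d_ne).domain_nontrivial
    rw [M.monic.natDegree_map, ← M.monic.natDegree_map M.ψ, M.map_f,
      natDegree_finsetProd_X_sub_C_eq_card, Finset.card_univ, ZMod.card]
  have hcast : ∀ (G : (Localization.Away M.s)[X]) (z : Qb),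
      padicEmbedding q (aeval z (G.map ev)) =
        G.eval₂ ((algebraMap ℚ_[q] (PadicAlgCl q)).comp (evAt _ hne)) (padicEmbedding q z) :=
    fun G z => by
      rw [hev, aeval_def, eval₂_map]
      exact hom_eval₂ G _ (padicEmbedding q : Qb →+* PadicAlgCl q) z
  -- a root near every entry
  have hnear : ∀ g, ∃ θ : Qb, aeval θ f₁ = 0 ∧ ‖padicEmbedding q θ - a g‖ < δ := by
    intro g
    by_contra! hall
    have hsplit := prod_multiset_X_sub_C_of_monic_of_roots_card_eq
      (hf₁.map (algebraMap ℚ Qb)) IsAlgClosed.card_roots_eq_natDegree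
    refine lt_irrefl (δ ^ n) (lt_of_le_of_lt ?_ (hfall g hne))
    rw [hev, ← eval_map, ← Polynomial.map_map, ← Polynomial.map_map]
    change δ ^ n ≤ ‖eval (a g) (map (padicEmbedding q : Qb →+* PadicAlgCl q)
      (map (algebraMap ℚ Qb) f₁))‖
    rw [← hsplit, Polynomial.map_multiset_prod, eval_multiset_prod, Multiset.map_map,
      Multiset.map_map]
    refine le_of_eq_of_le ?_ (pow_card_le_norm_prod hδ.le _ _ fun r hr => ?_)
    · rw [IsAlgClosed.card_roots_eq_natDegree, natDegree_map, hdeg]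
    · show δ ≤ ‖eval (a g) (map _ (X - C r))‖
      rw [Polynomial.map_sub, map_X, map_C, eval_sub, eval_X, eval_C, norm_sub_rev]
      refine hall r ?_
      have := (mem_roots (hf₁.map _).ne_zero).1 hr
      rwa [IsRoot, eval_map_algebraMap] at this
  choose θ hθ hθa using hnear
  have hclose : ∀ g h, ‖padicEmbedding q (θ g) - a h‖ < ε → g = h := fun g h hgh => by
    by_contra hne'
    refine absurd (hsep g h hne') (not_le.2 ?_)
    have e1 : a g - a h = (padicEmbedding q (θ g) - a h) + -(padicEmbedding q (θ g) - a g) := by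
      ring
    rw [e1]
    refine (IsUltrametricDist.norm_add_le_max _ _).trans_lt (max_lt hgh ?_)
    rw [norm_neg]
    exact (hθa g).trans_le hδε
  have hθinj : Function.Injective θ := fun g h e =>
    hclose g h (by rw [e]; exact (hθa h).trans_le hδε)
  have hall : ∀ z : Qb, aeval z f₁ = 0 → ∃ g, θ g = z := by
    intro z hz
    by_contra! hno
    have hsub : insert z (Finset.univ.image θ) ⊆ (f₁.aroots Qb).toFinset := by
      intro y hy
      rw [Multiset.mem_toFinset, mem_aroots]
      refine ⟨hf₁.ne_zero, ?_⟩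
      rcases Finset.mem_insert.1 hy with rfl | hy
      · exact hz
      · obtain ⟨g, -, rfl⟩ := Finset.mem_image.1 hy
        exact hθ g
    have h1 := (Finset.card_le_card hsub).trans
      ((Multiset.toFinset_card_le _).trans (card_roots' _))
    rw [Finset.card_insert_of_notMem (by simpa using hno), Finset.card_image_of_injective _ hθinj,
      Finset.card_univ, ZMod.card, natDegree_map, hdeg] at h1
    omega
  have huniq : ∀ z g, aeval z f₁ = 0 → ‖padicEmbedding q z - a g‖ < ε → z = θ g := by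
    intro z g hz hzg
    obtain ⟨h, rfl⟩ := hall z hz
    rw [hclose h g hzg]
  have hstep₁ : ∀ g, aeval (θ g) p₁ = θ (g + 1) := by
    intro g
    refine huniq _ _ ?_ ?_
    · obtain ⟨Q, hQ⟩ := M.dvd
      have e1 : f₁.comp p₁ = f₁ * Q.map ev := by
        rw [← Polynomial.map_comp, hQ, Polynomial.map_mul]
      rw [← aeval_comp, e1, map_mul, hθ g, zero_mul]
    · rw [hcast]
      have h := hWp g _ (hUV g (Set.mk_mem_prod (hUall g) (hrV g (Metric.mem_ball.2
        (by rw [dist_eq_norm]; exact (hθa g).trans_le (hδr g)))))) hne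
      rwa [hstep] at h
  have hconj : ∀ σ : GQ, ∀ g, aeval (σ (θ g)) f₁ = 0 := fun σ g => by
    exact (aeval_algHom_apply σ.toAlgHom (θ g) f₁).trans ((congrArg σ (hθ g)).trans (map_zero σ))
  choose k hk using fun σ : GQ => hall _ (hconj σ 0)
  have hshift : ∀ (σ : GQ) (g : ZMod n), σ (θ g) = θ (g + k σ) := by
    intro σ g
    obtain ⟨i, rfl⟩ : ∃ i : ℕ, (i : ZMod n) = g := ⟨g.val, ZMod.natCast_zmod_val g⟩
    induction i with
    | zero => rw [Nat.cast_zero, zero_add, hk]
    | succ i ih =>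
      rw [Nat.cast_succ, ← hstep₁,
        show σ (aeval (θ (i : ZMod n)) p₁) = aeval (σ (θ (i : ZMod n))) p₁
        from (aeval_algHom_apply σ.toAlgHom _ p₁).symm, ih, hstep₁, add_right_comm]
  have hmul : ∀ σ τ : GQ, k (σ * τ) = k σ + k τ := fun σ τ => hθinj (by
    rw [hk, AlgEquiv.mul_apply, ← hk τ, hshift, add_comm])
  refine ⟨MonoidHom.mk' (fun σ => Multiplicative.ofAdd (k σ)) fun σ τ => by rw [hmul, ofAdd_add],
    ?_, fun τ hτ => congrArg Multiplicative.ofAdd (?_ : _ = (0 : ZMod n)),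
    congrArg Multiplicative.ofAdd ?_⟩
  · have : FiniteDimensional ℚ (IntermediateField.adjoin ℚ ({θ 0} : Set Qb)) :=
      IntermediateField.adjoin.finiteDimensional (Algebra.IsIntegral.isIntegral _)
    refine Subgroup.isOpen_mono (fun σ hσ => MonoidHom.mem_ker.2 ?_)
      (IntermediateField.fixingSubgroup_isOpen (IntermediateField.adjoin ℚ ({θ 0} : Set Qb)))
    refine congrArg Multiplicative.ofAdd (?_ : _ = (0 : ZMod n))
    refine hθinj ((hk σ).trans ?_)
    exact (IntermediateField.mem_fixingSubgroup_iff _ σ).1 hσ _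
      (IntermediateField.mem_adjoin_simple_self ℚ _)
  · refine hθinj ((hk _).trans (huniq _ _ (hconj _ 0) ?_))
    have hζ := inertL_apply_root hτ (not_dvd_expOrder n (Nat.pos_of_neZero n))
      (unitRoot_spec n q).pow_eq_one
    rw [iota_loc, ← hfix τ hζ 0, ← map_sub, norm_algEquiv]
    exact (hθa 0).trans_le hδε
  · refine hθinj ((hk _).trans (huniq _ _ (hconj _ 0) ?_))
    rw [iota_loc, show a 1 = frobL q (a 0) by rw [hfrob, zero_add], ← map_sub, norm_algEquiv]
    exact (hθa 0).trans_le hδε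

end FA.NoetherProblem

end
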