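import Fermat.Agent.NoetherProblem.Setup
import Fermat.Agent.GalCoh.UnrLocal
import Mathlib.FieldTheory.Galois.Infinite
import Mathlib.Algebra.MvPolynomial.Funext

/-!
# Points over the unramified extension of `ℚ_q` of degree `n`

A polynomial in the variables has a nonzero value at some tuple which Frobenius shifts and which
lies in the field of the roots of unity of order `q ^ n - 1`; there an invariant rational function
has its value in `ℚ_q`.
-/

set_option autoImplicit false
set_option linter.unusedSectionVars false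

noncomputable section

namespace FA.NoetherProblem

open FA.GalCoh

variable (n : ℕ) [NeZero n] (q : ℕ) [hq : Fact q.Prime]

theorem exists_unitRoot : ∃ ζ : PadicAlgCl q, IsPrimitiveRoot ζ (q ^ n - 1) := by
  have : NeZero ((q ^ n - 1 : ℕ) : PadicAlgCl q) :=
    ⟨Nat.cast_ne_zero.2 (expOrder_pos n (Nat.pos_of_neZero n)).ne'⟩
  exact HasEnoughRootsOfUnity.exists_primitiveRoot (PadicAlgCl q) (q ^ n - 1)

/-- A primitive root of unity of order `q ^ n - 1`. -/
def unitRoot : PadicAlgCl q := (exists_unitRoot n q).choose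

theorem unitRoot_spec : IsPrimitiveRoot (unitRoot n q) (q ^ n - 1) :=
  (exists_unitRoot n q).choose_spec

/-- Its conjugates. -/
def conjRoot (g : ZMod n) : PadicAlgCl q := unitRoot n q ^ q ^ g.val

/-- A tuple shifted by Frobenius. -/
def frobTuple (c : Fin n → ℚ_[q]) (g : ZMod n) : PadicAlgCl q :=
  ∑ j : Fin n, algebraMap ℚ_[q] (PadicAlgCl q) (c j) * conjRoot n q g ^ (j : ℕ)

variable {n q}

theorem conjRoot_natCast (i : ℕ) : conjRoot n q (i : ZMod n) = unitRoot n q ^ q ^ i := by
  have hpow : q ^ n ≡ 1 [MOD q ^ n - 1] :=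
    ((Nat.modEq_iff_dvd' (Nat.one_le_pow _ _ hq.out.pos)).2 dvd_rfl).symm
  have h : q ^ i ≡ q ^ (i % n) [MOD q ^ n - 1] := by
    have h2 := (hpow.pow (i / n)).mul_right (q ^ (i % n))
    rwa [← pow_mul, one_pow, one_mul, ← pow_add, Nat.div_add_mod] at h2
  rw [conjRoot, ZMod.val_natCast, pow_eq_pow_mod (q ^ i) (unitRoot_spec n q).pow_eq_one,
    show q ^ i % (q ^ n - 1) = q ^ (i % n) % (q ^ n - 1) from h,
    ← pow_eq_pow_mod _ (unitRoot_spec n q).pow_eq_one]

theorem conjRoot_injective : Function.Injective (conjRoot n q) := fun g h e => by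
  have := exponent_unique (Nat.pos_of_neZero n) (unitRoot_spec n q) e
  rwa [ZMod.natCast_zmod_val, ZMod.natCast_zmod_val] at this

theorem frobL_conjRoot (g : ZMod n) : frobL q (conjRoot n q g) = conjRoot n q (g + 1) := by
  obtain ⟨i, rfl⟩ : ∃ i : ℕ, (i : ZMod n) = g := ⟨g.val, ZMod.natCast_zmod_val g⟩
  rw [← Nat.cast_succ, conjRoot_natCast, conjRoot_natCast, map_pow,
    frobL_apply_root (not_dvd_expOrder n (Nat.pos_of_neZero n)) (unitRoot_spec n q).pow_eq_one,
    ← pow_mul, pow_succ']

theorem frobL_frobTuple (c : Fin n → ℚ_[q]) (g : ZMod n) :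
    frobL q (frobTuple n q c g) = frobTuple n q c (g + 1) := by
  simp only [frobTuple, map_sum, map_mul, map_pow, AlgEquiv.commutes, frobL_conjRoot]

theorem frobTuple_fixed {σ : LG q} (hσ : σ (unitRoot n q) = unitRoot n q) (c : Fin n → ℚ_[q])
    (g : ZMod n) : σ (frobTuple n q c g) = frobTuple n q c g := by
  simp only [frobTuple, conjRoot, map_sum, map_mul, map_pow, AlgEquiv.commutes, hσ]

/-- The tuples are dense enough. -/
theorem exists_aeval_frobTuple_ne_zero {D : VarRing n} (hD : D ≠ 0) :
    ∃ c : Fin n → ℚ_[q], MvPolynomial.aeval (frobTuple n q c) D ≠ 0 := by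
  classical
  let lin : ZMod n → MvPolynomial (Fin n) (PadicAlgCl q) := fun g =>
    ∑ j : Fin n, MvPolynomial.C (conjRoot n q g ^ (j : ℕ)) * MvPolynomial.X j
  let D' : MvPolynomial (Fin n) (PadicAlgCl q) := MvPolynomial.aeval lin D
  have hev : ∀ y : Fin n → PadicAlgCl q, MvPolynomial.eval y D' =
      MvPolynomial.aeval (fun g => ∑ j : Fin n, conjRoot n q g ^ (j : ℕ) * y j) D := fun y => by
    let E : MvPolynomial (Fin n) (PadicAlgCl q) →ₐ[ℚ] PadicAlgCl q :=
      (MvPolynomial.aeval y).restrictScalars ℚ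
    show E (MvPolynomial.aeval lin D) = _
    rw [← AlgHom.comp_apply, MvPolynomial.comp_aeval]
    refine congrArg (fun f => MvPolynomial.aeval f D) (funext fun g => ?_)
    simp [E, lin, map_sum]
  by_contra! hall
  have hD' : D' = 0 := by
    refine MvPolynomial.funext_set (fun _ => Set.range (algebraMap ℚ_[q] (PadicAlgCl q)))
      (fun _ => Set.infinite_range_of_injective (algebraMap ℚ_[q] (PadicAlgCl q)).injective)
      fun y hy => ?_
    choose c hc using fun j => hy j (Set.mem_univ j)
    rw [map_zero, hev, ← hall c]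
    refine congrArg (fun f => MvPolynomial.aeval f D) (funext fun g => ?_)
    exact Finset.sum_congr rfl fun j _ => by rw [← hc j, mul_comm]
  refine hD (MvPolynomial.map_injective (algebraMap ℚ (PadicAlgCl q))
    (algebraMap ℚ (PadicAlgCl q)).injective ?_)
  rw [map_zero]
  refine MvPolynomial.funext fun a => ?_
  rw [map_zero, MvPolynomial.eval_map, ← MvPolynomial.aeval_def]
  set P := Lagrange.interpolate Finset.univ (conjRoot n q) a
  have hP : P.degree < (n : ℕ) := by
    have h := Lagrange.degree_interpolate_lt (s := Finset.univ) a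
      (conjRoot_injective (n := n) (q := q)).injOn
    rwa [Finset.card_univ, ZMod.card] at h
  have ha : a = fun g => ∑ j : Fin n, conjRoot n q g ^ (j : ℕ) * P.coeff j := funext fun g => by
    have h := Lagrange.eval_interpolate_at_node a (conjRoot_injective (n := n) (q := q)).injOn
      (Finset.mem_univ g)
    rw [← h]
    show P.eval _ = _
    by_cases hP0 : P = 0
    · simp [hP0]
    · rw [Polynomial.eval_eq_sum_range' ((Polynomial.natDegree_lt_iff_degree_lt hP0).2 hP),
        Finset.sum_range]
      exact Finset.sum_congr rfl fun j _ => mul_comm _ _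
  rw [ha, ← hev, hD', map_zero]

/-- What frobenius and the stabiliser of the root fix is in `ℚ_q`. -/
theorem mem_range_of_fixed {x : PadicAlgCl q} (hφ : frobL q x = x)
    (hζ : ∀ σ : LG q, σ (unitRoot n q) = unitRoot n q → σ x = x) :
    x ∈ Set.range (algebraMap ℚ_[q] (PadicAlgCl q)) := by
  rw [InfiniteGalois.mem_range_algebraMap_iff_fixed]
  intro τ
  obtain ⟨M, hM, hMs⟩ := galAct_fieldLevels.smooth (L := fieldLevels ℚ_[q] (PadicAlgCl q))
    (unitRoot n q)
  obtain ⟨i, ι, hι, m, hm, rfl⟩ := exists_frobL_decomp hM τ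
  show (frobL q ^ i) (ι (m x)) = x
  rw [hζ m (hMs m hm), hζ ι (inertL_apply_root hι (not_dvd_expOrder n (Nat.pos_of_neZero n))
    (unitRoot_spec n q).pow_eq_one)]
  induction i with
  | zero => rfl
  | succ i ih => rw [pow_succ, AlgEquiv.mul_apply, hφ, ih]

end FA.NoetherProblem

end
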