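import Fermat.Agent.NoetherProblem.Obstruction
import Fermat.Agent.NoetherProblem.Approximate
import Fermat.Agent.Root.SummaryAbelianInverseGalois

/-!
# Cyclic fields with unramified completion, and the invariants of the shift

A cyclic field whose closure in the algebraic closure of `ℚ_q` is the unramified extension of the
same degree is the same as a character unramified at `q` with Frobenius going to a generator. So the
invariants of the shift on `n` variables are not rational when `8 ∣ n`.
-/

set_option autoImplicit false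
set_option linter.unusedSectionVars false

noncomputable section

local notation "Qb" => AlgebraicClosure ℚ
local notation "GQ" => AlgebraicClosure ℚ ≃ₐ[ℚ] AlgebraicClosure ℚ

namespace FA.NoetherProblem

open FA.GalCoh IntermediateField

variable {n : ℕ} [NeZero n] {q : ℕ} [hq : Fact q.Prime]

/-- The field generated over `ℚ_q` by the image of `K`. -/
def localField (q : ℕ) [Fact q.Prime] (K : IntermediateField ℚ Qb) :
    IntermediateField ℚ_[q] (PadicAlgCl q) :=
  adjoin ℚ_[q] (padicEmbedding q '' K)

theorem mem_fixing_localField (K : IntermediateField ℚ Qb) (σ : LG q) :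
    σ ∈ (localField q K).fixingSubgroup ↔ loc q σ ∈ K.fixingSubgroup := by
  constructor
  · refine fun h => (IntermediateField.mem_fixingSubgroup_iff _ _).2 fun x hx =>
      (padicEmbedding q : Qb →+* PadicAlgCl q).injective ?_
    show padicEmbedding q (loc q σ x) = padicEmbedding q x
    rw [iota_loc]
    exact (IntermediateField.mem_fixingSubgroup_iff _ σ).1 h _ (subset_adjoin _ _ ⟨x, hx, rfl⟩)
  · intro h
    refine (Subgroup.zpowers_le (g := σ)).1 ((IntermediateField.le_iff_le _ _).1 ?_)
    refine adjoin_le_iff.2 ?_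
    rintro _ ⟨x, hx, rfl⟩
    refine (mem_fixedField_iff _ _).2 fun g hg => ?_
    have hle : Subgroup.zpowers σ ≤ MulAction.stabilizer _ (padicEmbedding q x) :=
      Subgroup.zpowers_le.2 (MulAction.mem_stabilizer_iff.2 (by
        rw [AlgEquiv.smul_def, ← iota_loc,
          (IntermediateField.mem_fixingSubgroup_iff _ _).1 h x hx]))
    exact MulAction.mem_stabilizer_iff.1 (hle hg)

theorem mem_fixing_unitRoot (σ : LG q) :
    σ ∈ (adjoin ℚ_[q] {unitRoot n q}).fixingSubgroup ↔ σ (unitRoot n q) = unitRoot n q := by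
  refine ⟨fun h => (IntermediateField.mem_fixingSubgroup_iff _ σ).1 h _
    (mem_adjoin_simple_self _ _), fun h => ?_⟩
  refine (Subgroup.zpowers_le (g := σ)).1 ((IntermediateField.le_iff_le _ _).1 ?_)
  refine adjoin_le_iff.2 (Set.singleton_subset_iff.2 ((mem_fixedField_iff _ _).2 fun g hg => ?_))
  have hle : Subgroup.zpowers σ ≤ MulAction.stabilizer _ (unitRoot n q) :=
    Subgroup.zpowers_le.2 (MulAction.mem_stabilizer_iff.2 h)
  exact MulAction.mem_stabilizer_iff.1 (hle hg)

/-- From a character to a field. -/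
theorem exists_field_of_character (w : GQ →* Multiplicative (ZMod n))
    (hw : IsOpen (w.ker : Set GQ)) (hι : ∀ τ ∈ inertL q, w (loc q τ) = 1)
    (hf : w (loc q (frobL q)) = Multiplicative.ofAdd 1) :
    ∃ K : IntermediateField ℚ Qb, FiniteDimensional ℚ K ∧ IsGalois ℚ K ∧
      Nonempty ((K ≃ₐ[ℚ] K) ≃* Multiplicative (ZMod n)) ∧
      localField q K = adjoin ℚ_[q] {unitRoot n q} := by
  have hsurj : Function.Surjective w := fun y => ⟨loc q (frobL q) ^ (Multiplicative.toAdd y).val, by
    rw [map_pow, hf, ← ofAdd_nsmul, nsmul_one, ZMod.natCast_zmod_val, ofAdd_toAdd]⟩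
  obtain ⟨K, hK, hgal, he, hiff⟩ :=
    FA.AbelianInverseGalois.exists_field_of_surjective w hsurj hw
  refine ⟨K, hK, hgal, he, ?_⟩
  rw [← InfiniteGalois.fixedField_fixingSubgroup (localField q K),
    ← InfiniteGalois.fixedField_fixingSubgroup (adjoin ℚ_[q] {unitRoot n q})]
  congr 1
  ext σ
  rw [mem_fixing_localField, IntermediateField.mem_fixingSubgroup_iff, hiff, mem_fixing_unitRoot]
  let b := Module.finBasis ℚ K
  let E : IntermediateField ℚ_[q] (PadicAlgCl q) :=
    adjoin ℚ_[q] (insert (unitRoot n q) (Set.range fun i => padicEmbedding q (b i : Qb)))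
  have : FiniteDimensional ℚ_[q] E := by
    have : Finite ↥(insert (unitRoot n q) (Set.range fun i => padicEmbedding q (b i : Qb))) :=
      ((Set.finite_range _).insert _).to_subtype
    exact finiteDimensional_adjoin fun x _ => Algebra.IsIntegral.isIntegral x
  obtain ⟨i, τ, hτ, m, hm, rfl⟩ := exists_frobL_decomp (fixingSubgroup_mem_fieldLevels E) σ
  have hmζ : m (unitRoot n q) = unitRoot n q :=
    (IntermediateField.mem_fixingSubgroup_iff _ m).1 hm _ (subset_adjoin _ _ (Set.mem_insert _ _))
  have hwm : w (loc q m) = 1 := by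
    refine (hiff _).1 fun x hx => ?_
    have hb : ∀ j, loc q m (b j : Qb) = b j := fun j =>
      (padicEmbedding q : Qb →+* PadicAlgCl q).injective (by
        show padicEmbedding q (loc q m _) = padicEmbedding q _
        rw [iota_loc]
        exact (IntermediateField.mem_fixingSubgroup_iff _ m).1 hm _
          (subset_adjoin _ _ (Set.mem_insert_of_mem _ ⟨j, rfl⟩)))
    have e1 : ((loc q m).toLinearMap.comp K.val.toLinearMap) = K.val.toLinearMap :=
      b.ext fun j => hb j
    exact LinearMap.congr_fun e1 ⟨x, hx⟩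
  rw [map_mul, map_mul, map_mul, map_mul, hι τ hτ, hwm, mul_one, mul_one, map_pow, map_pow, hf,
    ← ofAdd_nsmul, nsmul_one, ofAdd_eq_one, AlgEquiv.mul_apply, AlgEquiv.mul_apply, hmζ,
    inertL_apply_root hτ (not_dvd_expOrder n (Nat.pos_of_neZero n))
      (unitRoot_spec n q).pow_eq_one]
  have hpow : (frobL q ^ i) (unitRoot n q) = conjRoot n q (i : ZMod n) := by
    rw [conjRoot_natCast]
    induction i with
    | zero => simp
    | succ i ih =>
      rw [pow_succ, AlgEquiv.mul_apply, frobL_apply_root (not_dvd_expOrder n (Nat.pos_of_neZero n))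
        (unitRoot_spec n q).pow_eq_one, map_pow, ih, ← pow_mul, ← pow_succ]
  have h0 : conjRoot n q 0 = unitRoot n q := by simp [conjRoot]
  rw [hpow]
  exact ⟨fun h => by rw [h, h0], fun h => conjRoot_injective (h.trans h0.symm)⟩

/-- **No cyclic field of degree divisible by eight is inert at two.** -/
theorem localField_ne {n : ℕ} [NeZero n] (h8 : 8 ∣ n) (K : IntermediateField ℚ Qb)
    [FiniteDimensional ℚ K] [IsGalois ℚ K] (e : (K ≃ₐ[ℚ] K) ≃* Multiplicative (ZMod n))
    {z : PadicAlgCl 2} (hz : IsPrimitiveRoot z (2 ^ n - 1)) :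
    localField 2 K ≠ adjoin ℚ_[2] {z} := by
  intro heq
  let w : GQ →* Multiplicative (ZMod n) := e.toMonoidHom.comp (AlgEquiv.restrictNormalHom K)
  have hker : ∀ σ, σ ∈ K.fixingSubgroup ↔ w σ = 1 := fun σ => by
    simp only [w, MonoidHom.comp_apply, MulEquiv.coe_toMonoidHom, map_eq_one_iff e e.injective,
      IntermediateField.mem_fixingSubgroup_iff]
    refine ⟨fun h => AlgEquiv.ext fun x => Subtype.ext
      ((AlgEquiv.restrictNormal_commutes σ K x).trans (h x x.2)), fun h x hx => ?_⟩
    have h2 := AlgEquiv.restrictNormal_commutes σ K ⟨x, hx⟩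
    rw [show σ.restrictNormal K = 1 from h] at h2
    exact h2.symm
  have hw : IsOpen (w.ker : Set GQ) := Subgroup.isOpen_mono (H₁ := K.fixingSubgroup)
    (fun σ hσ => MonoidHom.mem_ker.2 ((hker σ).1 hσ)) (IntermediateField.fixingSubgroup_isOpen K)
  have hfix : ∀ σ : LG 2, w (loc 2 σ) = 1 → σ z = z := fun σ h => by
    have h1 : σ ∈ (localField 2 K).fixingSubgroup :=
      (mem_fixing_localField K σ).2 ((hker _).2 h)
    rw [heq] at h1
    exact (IntermediateField.mem_fixingSubgroup_iff _ σ).1 h1 _ (mem_adjoin_simple_self _ _)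
  have hι : ∀ τ ∈ inertL 2, w (loc 2 τ) = 1 := fun τ hτ => by
    refine (hker _).1 ((mem_fixing_localField K τ).1 ?_)
    rw [heq]
    refine (Subgroup.zpowers_le (g := τ)).1 ((IntermediateField.le_iff_le _ _).1 ?_)
    refine adjoin_le_iff.2 (Set.singleton_subset_iff.2 ((mem_fixedField_iff _ _).2 fun g hg => ?_))
    have hle : Subgroup.zpowers τ ≤ MulAction.stabilizer _ z :=
      Subgroup.zpowers_le.2 (MulAction.mem_stabilizer_iff.2
        (inertL_apply_root hτ (not_dvd_expOrder n (Nat.pos_of_neZero n)) hz.pow_eq_one))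
    exact MulAction.mem_stabilizer_iff.1 (hle hg)
  set c : ZMod n := Multiplicative.toAdd (w (loc 2 (frobL 2))) with hc
  have hpow : ∀ i : ℕ, (frobL 2 ^ i) z = z ^ 2 ^ i := by
    intro i
    induction i with
    | zero => simp
    | succ i ih =>
      rw [pow_succ, AlgEquiv.mul_apply,
        frobL_apply_root (not_dvd_expOrder n (Nat.pos_of_neZero n)) hz.pow_eq_one, map_pow, ih,
        ← pow_mul, ← pow_succ]
  have hord : ∀ i : ℕ, (i : ZMod n) * c = 0 → (i : ZMod n) = 0 := fun i hi => by
    have h1 : w (loc 2 (frobL 2 ^ i)) = 1 := by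
      rw [map_pow, map_pow, ← ofAdd_toAdd (w _), ← ofAdd_nsmul, ← hc, nsmul_eq_mul, hi, ofAdd_zero]
    have h2 := (hpow i).symm.trans (hfix _ h1)
    exact (exponent_unique (Nat.pos_of_neZero n) hz (j := 0) (by rw [h2, pow_zero, pow_one])).trans
      Nat.cast_zero
  have hinj : Function.Injective fun x : ZMod n => x * c := fun x y hxy => by
    have h := hord (x - y).val (by
      rw [ZMod.natCast_zmod_val, sub_mul, sub_eq_zero]
      exact hxy)
    rwa [ZMod.natCast_zmod_val, sub_eq_zero] at h
  obtain ⟨d, hd⟩ := Finite.surjective_of_injective hinj 1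
  let w' : GQ →* Multiplicative (ZMod n) :=
    (AddMonoidHom.toMultiplicative (AddMonoidHom.mulLeft d)).comp w
  refine frob_ne_generator h8 w' (Subgroup.isOpen_mono (H₁ := w.ker) (fun σ hσ => ?_) hw)
    (fun τ hτ => ?_) ?_
  · rw [MonoidHom.mem_ker] at hσ ⊢
    rw [MonoidHom.comp_apply, hσ, map_one]
  · rw [MonoidHom.comp_apply, hι τ hτ, map_one]
  · exact congrArg Multiplicative.ofAdd hd

/-- **The invariants of the cyclic shift are not rational.** -/
theorem invField_not_rational {n : ℕ} [NeZero n] (h8 : 8 ∣ n) (ι : Type) [Finite ι] :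
    IsEmpty (invField n ≃+* FractionRing (MvPolynomial ι ℚ)) := by
  refine ⟨fun e => ?_⟩
  obtain ⟨M⟩ := nonempty_ratModel e.symm
  obtain ⟨w, hw, hι, hf⟩ := exists_character (q := 2) M
  exact frob_ne_generator h8 w hw hι hf

/-- The functions fixed by the shift of the variables, as a subfield. -/
def invSubfield (n : ℕ) [NeZero n] : Subfield (FractionRing (MvPolynomial (ZMod n) ℚ)) :=
  RingHom.eqLocusField
    (IsFractionRing.ringEquivOfRingEquiv
      (MvPolynomial.renameEquiv ℚ (Equiv.addRight (1 : ZMod n))).toRingEquiv).toRingHom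
    (RingHom.id _)

/-- The two descriptions of the invariants agree. -/
theorem mem_invSubfield_iff {n : ℕ} [NeZero n] {z : FunF n} :
    z ∈ invSubfield n ↔ z ∈ invField n := by
  rw [mem_invField_iff]
  have h : ((IsFractionRing.ringEquivOfRingEquiv
      (MvPolynomial.renameEquiv ℚ (Equiv.addRight (1 : ZMod n))).toRingEquiv :
        FunF n ≃+* FunF n) : FunF n →+* FunF n) = (shiftF n : FunF n →+* FunF n) :=
    IsLocalization.ringHom_ext (nonZeroDivisors (VarRing n)) (RingHom.ext fun A => by
      rw [RingHom.comp_apply, RingHom.comp_apply]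
      show IsFractionRing.ringEquivOfRingEquiv _ (algebraMap (VarRing n) (FunF n) A) =
        shiftF n (algebraMap (VarRing n) (FunF n) A)
      rw [IsFractionRing.ringEquivOfRingEquiv_algebraMap, shiftF_algebraMap]
      rfl)
  exact Iff.of_eq (congrArg (fun φ : FunF n →+* FunF n => φ z = z) h)

/-- The same equivalence for the fields. -/
def invSubfieldEquiv (n : ℕ) [NeZero n] : invSubfield n ≃+* invField n where
  toFun z := ⟨z.1, mem_invSubfield_iff.1 z.2⟩
  invFun z := ⟨z.1, mem_invSubfield_iff.2 z.2⟩
  map_mul' _ _ := rfl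
  map_add' _ _ := rfl

end FA.NoetherProblem

end
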