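import Fermat.Agent.NoetherProblem.Units
import Fermat.Agent.ScholzReichardt.Characters
import Fermat.Agent.KroneckerWeber.Main
import Fermat.Agent.Root.CyclotomicLevel

/-!
# No character of order eight is unramified of order eight at two

A character of the Galois group of `ℚ` with values in `ℤ / n`, `8 ∣ n`, trivial on inertia at `2`
does not send Frobenius at `2` to a generator: by Kronecker and Weber it comes from the units modulo
an odd `m`, where `2` has even image.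
-/

set_option autoImplicit false
set_option linter.style.haveILetI false

noncomputable section

local notation "Qb" => AlgebraicClosure ℚ
local notation "GQ" => AlgebraicClosure ℚ ≃ₐ[ℚ] AlgebraicClosure ℚ

namespace FA.NoetherProblem

open FA.GalCoh Fermat.Agent.ScholzReichardt

theorem exists_aut_pow {m : ℕ} [NeZero m] {ζ : Qb} (hζ : IsPrimitiveRoot ζ m) (u : (ZMod m)ˣ) :
    ∃ σ : GQ, σ ζ = ζ ^ (u : ZMod m).val := by
  have hζa : IsPrimitiveRoot (ζ ^ (u : ZMod m).val) m :=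
    hζ.pow_of_coprime _ (ZMod.val_coe_unit_coprime u)
  have hc : IsConjRoot ℚ ζ (ζ ^ (u : ZMod m).val) := by
    show minpoly ℚ ζ = minpoly ℚ (ζ ^ (u : ZMod m).val)
    rw [← Polynomial.cyclotomic_eq_minpoly_rat hζ (NeZero.pos _),
      ← Polynomial.cyclotomic_eq_minpoly_rat hζa (NeZero.pos _)]
  have : Normal ℚ Qb := by
    have : IsAlgClosure ℚ Qb := ⟨inferInstance, AlgebraicClosure.isAlgebraic ℚ⟩
    exact IsAlgClosure.normal ℚ Qb
  obtain ⟨σ, hσ⟩ := (IsConjRoot.symm hc).exists_algEquiv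
  exact ⟨σ, hσ⟩

theorem apply_eq_pow_cycMod {p : ℕ} [Fact p.Prime] {a : ℕ} (σ : GQ) {μ : Qb}
    (hμ : μ ^ p ^ a = 1) :
    σ μ = μ ^ ((cycMod p a σ : (ZMod (p ^ a))ˣ) : ZMod (p ^ a)).val := by
  have : NeZero (p ^ a) := ⟨pow_ne_zero _ (Fact.out : p.Prime).ne_zero⟩
  obtain ⟨ζ, hζ⟩ := FA.TW.exists_primitiveRoot (Fact.out : p.Prime) a
  obtain ⟨k, -, hk⟩ := hζ.eq_pow_of_pow_eq_one
    (ξ := σ ζ) (by rw [← map_pow, hζ.pow_eq_one, map_one])
  have hall : ∀ ν : Qb, ν ^ p ^ a = 1 → σ ν = ν ^ k := fun ν hν => by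
    obtain ⟨i, -, rfl⟩ := hζ.eq_pow_of_pow_eq_one hν
    rw [map_pow, ← hk, ← pow_mul, ← pow_mul, mul_comm]
  rw [cycMod_eq_natCast hall, ZMod.val_natCast, hall μ hμ]
  exact pow_eq_pow_mod k hμ

/-- The level of an abelian character. -/
theorem exists_level_hom {M : Type} [CommGroup M] [Finite M] (w : GQ →* M)
    (hw : IsOpen (w.ker : Set GQ)) :
    ∃ N : ℕ, 0 < N ∧ ∀ σ : GQ, (∀ μ : Qb, μ ^ N = 1 → σ μ = μ) → w σ = 1 := by
  have : IsGalois ℚ Qb := FA.EC.isGalois_algebraicClosure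
  let H : ClosedSubgroup GQ := ⟨w.ker, Subgroup.isClosed_of_isOpen _ hw⟩
  have : H.Normal := w.normal_ker
  set K : IntermediateField ℚ Qb := IntermediateField.fixedField H.1
  have hfix : K.fixingSubgroup = w.ker := InfiniteGalois.fixingSubgroup_fixedField H
  obtain ⟨hK, -⟩ := (InfiniteGalois.isOpen_and_normal_iff_finite_and_isGalois K).mp
    (by rw [hfix]; exact ⟨hw, w.normal_ker⟩)
  have hle : K ≤ FA.OpenImage.rootsField := by
    rw [← InfiniteGalois.fixedField_fixingSubgroup FA.OpenImage.rootsField]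
    intro x hx ⟨σ, hσ⟩
    refine (IntermediateField.mem_fixedField_iff _ _).1 hx σ (MonoidHom.mem_ker.2 ?_)
    exact FA.KroneckerWeber.eq_one_of_fix_rootsOfUnity w hw fun μ n hn hμ =>
      (IntermediateField.mem_fixingSubgroup_iff _ σ).mp hσ μ
        (IntermediateField.subset_adjoin ℚ _ ⟨n, hn, hμ⟩)
  obtain ⟨N, hN, h⟩ := FA.OpenImage.exists_level_of_finite K
  refine ⟨N, hN, fun σ hσ => MonoidHom.mem_ker.1 (hfix ▸ ?_)⟩
  exact (IntermediateField.mem_fixingSubgroup_iff K σ).2 fun x hx => h σ hσ x hx (hle hx)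

/-- Trivial on inertia at `2`, hence of odd level. -/
theorem exists_odd_level {M : Type} [CommGroup M] [Finite M] (w : GQ →* M)
    (hw : IsOpen (w.ker : Set GQ)) (hι : ∀ ι ∈ inertL 2, w (loc 2 ι) = 1) :
    ∃ m : ℕ, Odd m ∧ ∀ σ : GQ, (∀ μ : Qb, μ ^ m = 1 → σ μ = μ) → w σ = 1 := by
  obtain ⟨N, hN, hlev⟩ := exists_level_hom w hw
  obtain ⟨a, m, hm, rfl⟩ := Nat.exists_eq_pow_mul_and_not_dvd hN.ne' 2 (by norm_num)
  refine ⟨m, Nat.odd_iff.2 (by omega), fun σ hσ => ?_⟩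
  rcases Nat.eq_zero_or_pos a with rfl | ha
  · exact hlev σ fun μ hμ => hσ μ (by simpa using hμ)
  obtain ⟨ι, hιmem, hιu⟩ := exists_inertia_cycMod_eq (p := 2) ha (cycMod 2 a σ)
  have hm0 : 0 < m := Nat.pos_of_ne_zero fun h => hm (h ▸ dvd_zero 2)
  have h2 : ∀ ν : Qb, ν ^ 2 ^ a = 1 → loc 2 ι ν = σ ν := fun ν hν => by
    rw [apply_eq_pow_cycMod _ hν, apply_eq_pow_cycMod _ hν, hιu]
  have hodd : ∀ ν : Qb, ν ^ m = 1 → loc 2 ι ν = ν := fun ν hν => (padicEmbedding 2).injective (by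
    show padicEmbedding 2 (loc 2 ι ν) = padicEmbedding 2 ν
    rw [iota_loc]
    exact inertL_apply_root hιmem hm (by rw [← map_pow, hν, map_one]))
  have hone : w (σ⁻¹ * loc 2 ι) = 1 := by
    refine hlev _ fun μ hμ => ?_
    show σ⁻¹ (loc 2 ι μ) = μ
    rw [show loc 2 ι μ = σ μ from ?_]
    · exact σ.symm_apply_apply μ
    obtain ⟨i, j, hij⟩ : ∃ i j : ℕ, 2 ^ a * i + m * j ≡ 1 [MOD 2 ^ a * m] := by
      have hc : (2 ^ a).Coprime m :=
        Nat.Coprime.pow_left a (Nat.prime_two.coprime_iff_not_dvd.2 hm)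
      obtain ⟨z, hz1, hz2⟩ := Nat.chineseRemainder hc 0 1
      obtain ⟨i, rfl⟩ := Nat.modEq_zero_iff_dvd.1 hz1
      obtain ⟨z', hz1', hz2'⟩ := Nat.chineseRemainder hc 1 0
      obtain ⟨j, rfl⟩ := Nat.modEq_zero_iff_dvd.1 hz2'
      refine ⟨i, j, (Nat.modEq_and_modEq_iff_modEq_mul hc).1 ⟨?_, ?_⟩⟩
      · exact (hz1.add hz1').trans (by rfl)
      · exact (hz2.add hz2').trans (by rfl)
    have hμ' : μ = (μ ^ 2 ^ a) ^ i * (μ ^ m) ^ j := by
      rw [← pow_mul, ← pow_mul, ← pow_add, pow_eq_pow_mod _ hμ, show (2 ^ a * i + m * j) %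
        (2 ^ a * m) = 1 % (2 ^ a * m) from hij, ← pow_eq_pow_mod _ hμ, pow_one]
    have hA : (μ ^ 2 ^ a) ^ m = 1 := by rw [← pow_mul, hμ]
    have hB : (μ ^ m) ^ 2 ^ a = 1 := by rw [← pow_mul, mul_comm m, hμ]
    rw [hμ']
    simp only [map_mul, map_pow _ (μ ^ 2 ^ a) i, map_pow _ (μ ^ m) j, hodd _ hA, hσ _ hA, h2 _ hB]
  rw [map_mul, hι ι hιmem, mul_one, map_inv, inv_eq_one] at hone
  exact hone

/-- **The obstruction.** -/
theorem frob_ne_generator {n : ℕ} [NeZero n] (h8 : 8 ∣ n) (w : GQ →* Multiplicative (ZMod n))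
    (hw : IsOpen (w.ker : Set GQ)) (hι : ∀ ι ∈ inertL 2, w (loc 2 ι) = 1) :
    w (loc 2 (frobL 2)) ≠ Multiplicative.ofAdd 1 := by
  intro hgen
  let w8 : GQ →* Multiplicative (ZMod 8) :=
    (AddMonoidHom.toMultiplicative (ZMod.castHom h8 (ZMod 8)).toAddMonoidHom).comp w
  have hw8 : IsOpen (w8.ker : Set GQ) := Subgroup.isOpen_mono (H₁ := w.ker) (fun σ hσ => by
    rw [MonoidHom.mem_ker] at hσ ⊢
    rw [MonoidHom.comp_apply, hσ, map_one]) hw
  obtain ⟨m, hm, hlev⟩ := exists_odd_level w8 hw8 fun ι hmem => by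
    rw [MonoidHom.comp_apply, hι ι hmem, map_one]
  have : NeZero m := ⟨by rintro rfl; exact absurd hm (by decide)⟩
  have : NeZero ((m : ℕ) : Qb) := ⟨Nat.cast_ne_zero.2 (NeZero.ne m)⟩
  obtain ⟨ζ, hζ⟩ := HasEnoughRootsOfUnity.exists_primitiveRoot Qb m
  have heq : ∀ σ τ : GQ, σ ζ = τ ζ → w8 σ = w8 τ := fun σ τ h => by
    have h1 : w8 (τ⁻¹ * σ) = 1 := hlev _ fun μ hμ => by
      obtain ⟨i, -, rfl⟩ := hζ.eq_pow_of_pow_eq_one hμ
      rw [map_pow]
      congr 1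
      show τ⁻¹ (σ ζ) = ζ
      rw [h]
      exact τ.symm_apply_apply ζ
    rw [map_mul, map_inv, inv_mul_eq_one] at h1
    exact h1.symm
  choose s hs using exists_aut_pow hζ
  let χ : (ZMod m)ˣ →* Multiplicative (ZMod 8) := MonoidHom.mk' (fun u => w8 (s u)) fun u v => by
    rw [← map_mul]
    refine heq _ _ ?_
    show s (u * v) ζ = s u (s v ζ)
    rw [hs, hs, map_pow, hs, ← pow_mul, Units.val_mul, ZMod.val_mul]
    exact (pow_eq_pow_mod _ hζ.pow_eq_one).symm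
  have hcop : (2 : ℕ).Coprime m := Nat.coprime_two_left.2 hm
  let u := ZMod.unitOfCoprime 2 hcop
  have h0 := par8_two m hm χ u (by simp [u, ZMod.coe_unitOfCoprime])
  have hu : w8 (s u) = w8 (loc 2 (frobL 2)) := heq _ _ ((padicEmbedding 2).injective (by
    show padicEmbedding 2 (s u ζ) = padicEmbedding 2 (loc 2 (frobL 2) ζ)
    rw [hs, iota_loc, frobL_apply_root (m := m)
      (Nat.prime_two.coprime_iff_not_dvd.1 hcop)
      (by rw [← map_pow, hζ.pow_eq_one, map_one]), ← map_pow, ZMod.coe_unitOfCoprime,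
      ZMod.val_natCast, ← pow_eq_pow_mod _ hζ.pow_eq_one]))
  rw [show χ u = w8 (s u) from rfl, hu, MonoidHom.comp_apply, hgen] at h0
  have h1 : ∀ z : ZMod 8, z = 1 → par8 z ≠ 0 := by decide
  exact h1 _ (map_one (ZMod.castHom h8 (ZMod 8))) h0

end FA.NoetherProblem

end
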