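import Mathlib.LinearAlgebra.Lagrange
import Mathlib.RingTheory.Localization.Away.Basic
import Mathlib.RingTheory.Localization.Integer
import Mathlib.RingTheory.MvPolynomial.Basic
import Mathlib.FieldTheory.Galois.Basic
import Mathlib.Algebra.MvPolynomial.Equiv
import Mathlib.Algebra.Polynomial.Lifts
import Mathlib.Algebra.Polynomial.RingDivision

/-!
# The cyclic shift of the variables

The rational function field in variables indexed by `ℤ / n` with the shift, its fixed field, and
what a rational parametrisation of the fixed field gives: a monic polynomial with parameters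
whose roots are the variables and a second one moving each root to the next, with all denominators
collected in one element.
-/

set_option autoImplicit false
set_option linter.unusedSectionVars false

noncomputable section

namespace FA.NoetherProblem

open Polynomial

variable (n : ℕ) [NeZero n]

/-- The polynomial ring in the variables. -/
abbrev VarRing : Type := MvPolynomial (ZMod n) ℚ

/-- The rational functions in the variables. -/
abbrev FunF : Type := FractionRing (VarRing n)

/-- The shift of the variables. -/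
def shiftF : FunF n ≃ₐ[ℚ] FunF n :=
  IsFractionRing.algEquivOfAlgEquiv (MvPolynomial.renameEquiv ℚ (Equiv.addRight (1 : ZMod n)))

/-- The field of invariants of the shift. -/
def invField : IntermediateField ℚ (FunF n) :=
  IntermediateField.fixedField (Subgroup.zpowers (shiftF n))

/-- A variable as a rational function. -/
def varF (g : ZMod n) : FunF n := algebraMap (VarRing n) (FunF n) (MvPolynomial.X g)

variable {n}

theorem shiftF_algebraMap (A : VarRing n) :
    shiftF n (algebraMap (VarRing n) (FunF n) A) =
      algebraMap (VarRing n) (FunF n) (MvPolynomial.rename (· + 1) A) :=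
  IsFractionRing.algEquivOfAlgEquiv_algebraMap _ A

theorem shiftF_varF (g : ZMod n) : shiftF n (varF n g) = varF n (g + 1) := by
  rw [varF, shiftF_algebraMap, MvPolynomial.rename_X, varF]

theorem varF_injective : Function.Injective (varF n) := fun _ _ h =>
  MvPolynomial.X_injective (IsFractionRing.injective (VarRing n) (FunF n) h)

theorem mem_invField_iff {z : FunF n} : z ∈ invField n ↔ shiftF n z = z := by
  rw [invField, IntermediateField.mem_fixedField_iff]
  refine ⟨fun h => h _ (Subgroup.mem_zpowers _), fun h g hg => ?_⟩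
  have hle : Subgroup.zpowers (shiftF n) ≤ MulAction.stabilizer _ z :=
    Subgroup.zpowers_le.2 (MulAction.mem_stabilizer_iff.2 h)
  exact MulAction.mem_stabilizer_iff.1 (hle hg)

variable (n) in
/-- The polynomial with the variables as roots. -/
def rootPoly : (FunF n)[X] := ∏ g : ZMod n, (X - C (varF n g))

variable (n) in
/-- The polynomial moving each variable to the next. -/
def stepPoly : (FunF n)[X] :=
  Lagrange.interpolate Finset.univ (varF n) fun g => varF n (g + 1)

theorem stepPoly_eval (g : ZMod n) : (stepPoly n).eval (varF n g) = varF n (g + 1) :=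
  Lagrange.eval_interpolate_at_node _ varF_injective.injOn (Finset.mem_univ g)

theorem rootPoly_monic : (rootPoly n).Monic := monic_prod_of_monic _ _ fun _ _ => monic_X_sub_C _

theorem rootPoly_dvd : rootPoly n ∣ (rootPoly n).comp (stepPoly n) := by
  refine Finset.prod_dvd_of_coprime ((pairwise_coprime_X_sub_C varF_injective).set_pairwise _)
    fun g _ => dvd_iff_isRoot.2 ?_
  rw [IsRoot, eval_comp, stepPoly_eval, rootPoly, eval_prod]
  exact Finset.prod_eq_zero (Finset.mem_univ (g + 1)) (by simp)

theorem rootPoly_coeff_mem (k : ℕ) : (rootPoly n).coeff k ∈ invField n := by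
  have h : (rootPoly n).map (shiftF n : FunF n →+* FunF n) = rootPoly n := by
    rw [rootPoly, Polynomial.map_prod]
    refine Fintype.prod_equiv (Equiv.addRight (1 : ZMod n)) _ _ fun g => ?_
    rw [Polynomial.map_sub, map_X, map_C]
    exact congrArg (fun z => X - C z) (shiftF_varF g)
  rw [mem_invField_iff]
  conv_rhs => rw [← h, coeff_map]
  rfl

theorem stepPoly_coeff_mem (k : ℕ) : (stepPoly n).coeff k ∈ invField n := by
  have hdeg := Lagrange.degree_interpolate_lt (fun g => varF n (g + 1))
    (varF_injective (n := n)).injOn (s := Finset.univ)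
  have h : (stepPoly n).map (shiftF n : FunF n →+* FunF n) = stepPoly n := by
    refine (Lagrange.eq_interpolate_iff (fun g => varF n (g + 1)) varF_injective.injOn).1
      ⟨degree_map_le.trans_lt hdeg, fun g _ => ?_⟩
    obtain ⟨h, rfl⟩ : ∃ h, g = h + 1 := ⟨g - 1, (sub_add_cancel g 1).symm⟩
    rw [← shiftF_varF, eval_map]
    exact (eval₂_at_apply (shiftF n : FunF n →+* FunF n) (varF n h)).trans
      ((congrArg (shiftF n) (stepPoly_eval h)).trans ((shiftF_varF _).trans rfl))
  rw [mem_invField_iff]
  conv_rhs => rw [← h, coeff_map]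
  rfl

/-- The map into the rational functions of a localisation. -/
def toFun (d : VarRing n) (hd : d ≠ 0) : Localization.Away d →+* FunF n :=
  IsLocalization.Away.lift d (g := algebraMap (VarRing n) (FunF n))
    (IsUnit.mk0 _ (by rwa [Ne, IsFractionRing.to_map_eq_zero_iff]))

theorem toFun_algebraMap (d : VarRing n) (hd : d ≠ 0) (A : VarRing n) :
    toFun d hd (algebraMap _ _ A) = algebraMap (VarRing n) (FunF n) A :=
  IsLocalization.Away.lift_eq _ _ _

theorem toFun_injective (d : VarRing n) (hd : d ≠ 0) : Function.Injective (toFun d hd) := by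
  refine (injective_iff_map_eq_zero _).2 fun z hz => ?_
  obtain ⟨⟨A, ⟨-, k, rfl⟩⟩, h⟩ := IsLocalization.surj (Submonoid.powers d) z
  have h1 := congrArg (toFun d hd) h
  rw [map_mul, hz, zero_mul, toFun_algebraMap] at h1
  rw [(IsFractionRing.to_map_eq_zero_iff.1 h1.symm), map_zero] at h
  exact ((IsLocalization.map_units (M := Submonoid.powers d) _
    ⟨d ^ k, k, rfl⟩).mul_left_eq_zero).1 h

/-- What a parametrisation of the invariants by variables indexed by `ι` gives. -/
structure RatModel (n : ℕ) [NeZero n] (ι : Type) where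
  /-- The denominator of the parameters. -/
  d : VarRing n
  /-- The denominator of the coefficients. -/
  s : MvPolynomial ι ℚ
  d_ne : d ≠ 0
  /-- The parameters as rational functions. -/
  ψ : Localization.Away s →+* Localization.Away d
  /-- The parametrised polynomial. -/
  f : (Localization.Away s)[X]
  /-- The parametrised step. -/
  p : (Localization.Away s)[X]
  monic : f.Monic
  dvd : f ∣ f.comp p
  map_f : f.map ψ = ∏ g : ZMod n, (X - C (algebraMap (VarRing n) _ (MvPolynomial.X g)))
  eval_p : ∀ g : ZMod n, (p.map ψ).eval (algebraMap (VarRing n) _ (MvPolynomial.X g)) =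
    algebraMap (VarRing n) _ (MvPolynomial.X (g + 1))
  inv : ∀ z, shiftF n (toFun d d_ne (ψ z)) = toFun d d_ne (ψ z)

theorem exists_integer_denominator {R K : Type*} [CommRing R] [IsDomain R] [Field K] [Algebra R K]
    [IsFractionRing R K] {κ : Type*} [Finite κ] (w : κ → K) :
    ∃ b : R, b ≠ 0 ∧ ∀ i, ∃ A, algebraMap R K A = algebraMap R K b * w i := by
  obtain ⟨b, hb⟩ := IsLocalization.exist_integer_multiples_of_finite (nonZeroDivisors R) w
  refine ⟨b, nonZeroDivisors.coe_ne_zero b, fun i => ?_⟩
  obtain ⟨A, hA⟩ := hb i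
  exact ⟨A, hA.trans (Algebra.smul_def _ _)⟩

/-- **A rational parametrisation gives a model.** -/
theorem nonempty_ratModel {ι : Type} [Finite ι]
    (e : FractionRing (MvPolynomial ι ℚ) ≃+* invField n) : Nonempty (RatModel n ι) := by
  classical
  let Φ : FractionRing (MvPolynomial ι ℚ) →+* FunF n :=
    (invField n).val.toRingHom.comp e.toRingHom
  have hinv : ∀ w, shiftF n (Φ w) = Φ w := fun w => mem_invField_iff.1 (e w).2
  have hrange : ∀ z ∈ invField n, ∃ w, Φ w = z := fun z hz =>
    ⟨e.symm ⟨z, hz⟩, congrArg Subtype.val (e.apply_symm_apply ⟨z, hz⟩)⟩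
  choose wf hwf using fun k => hrange _ (rootPoly_coeff_mem (n := n) k)
  choose wp hwp using fun k => hrange _ (stepPoly_coeff_mem (n := n) k)
  set D := max (rootPoly n).natDegree (stepPoly n).natDegree
  obtain ⟨s, hs0, hs⟩ := exists_integer_denominator (R := MvPolynomial ι ℚ)
    (Sum.elim (fun k : Fin (D + 1) => wf k) fun k : Fin (D + 1) => wp k)
  have hΦs : Φ (algebraMap _ _ s) ≠ 0 := fun h => hs0 (IsFractionRing.to_map_eq_zero_iff.1
    (Φ.injective (h.trans (map_zero _).symm)))
  let Φs : Localization.Away s →+* FunF n := IsLocalization.Away.lift s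
    (g := Φ.comp (algebraMap _ (FractionRing (MvPolynomial ι ℚ)))) (IsUnit.mk0 _ hΦs)
  have hΦseq : ∀ A, Φs (algebraMap _ _ A) = Φ (algebraMap _ _ A) := fun A =>
    IsLocalization.Away.lift_eq _ _ _
  have hmem : ∀ (w : FractionRing (MvPolynomial ι ℚ)) (A : MvPolynomial ι ℚ),
      algebraMap _ _ A = algebraMap _ _ s * w → Φ w ∈ Set.range Φs := fun w A hA => by
    refine ⟨algebraMap _ _ A * IsLocalization.Away.invSelf s, ?_⟩
    have h1 := congrArg Φs (IsLocalization.Away.mul_invSelf (S := Localization.Away s) s)
    rw [map_mul, map_one, hΦseq] at h1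
    rw [map_mul, hΦseq, hA, map_mul, mul_comm (Φ (algebraMap _ _ s)), mul_assoc, h1, mul_one]
  have hlift : ∀ (q : (FunF n)[X]) (w : ℕ → FractionRing (MvPolynomial ι ℚ)),
      q.natDegree ≤ D → (∀ k, Φ (w k) = q.coeff k) →
      (∀ k : Fin (D + 1), ∃ A, algebraMap _ _ A = algebraMap _ _ s * w k) →
      q ∈ Polynomial.lifts Φs := fun q w hq hw hA => by
    refine (lifts_iff_coeff_lifts q).2 fun k => ?_
    rcases le_or_gt k D with hk | hk
    · obtain ⟨A, hA⟩ := hA ⟨k, by omega⟩
      rw [← hw k]
      exact hmem _ A hA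
    · exact ⟨0, by rw [map_zero, coeff_eq_zero_of_natDegree_lt (hq.trans_lt hk)]⟩
  obtain ⟨f, hf, -, hfm⟩ := lifts_and_degree_eq_and_monic
    (hlift _ wf (le_max_left _ _) hwf fun k => hs (Sum.inl k)) rootPoly_monic
  obtain ⟨p, hp⟩ := Polynomial.mem_lifts _ |>.1
    (hlift _ wp (le_max_right _ _) hwp fun k => hs (Sum.inr k))
  -- the denominators of the parameters
  obtain ⟨d, hd, hdw⟩ := exists_integer_denominator (R := VarRing n)
    (fun o : Option ι => o.elim (Φ (algebraMap (MvPolynomial ι ℚ) _ s))⁻¹
      fun i => Φ (algebraMap (MvPolynomial ι ℚ) _ (MvPolynomial.X i)))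
  have hrd : ∀ o : Option ι, ∃ z : Localization.Away d, toFun d hd z =
      o.elim (Φ (algebraMap (MvPolynomial ι ℚ) _ s))⁻¹
        fun i => Φ (algebraMap (MvPolynomial ι ℚ) _ (MvPolynomial.X i)) := fun o => by
    obtain ⟨A, hA⟩ := hdw o
    refine ⟨algebraMap _ _ A * IsLocalization.Away.invSelf d, ?_⟩
    have h1 := congrArg (toFun d hd)
      (IsLocalization.Away.mul_invSelf (S := Localization.Away d) d)
    rw [map_mul, map_one, toFun_algebraMap] at h1
    rw [map_mul, toFun_algebraMap, hA, mul_comm (algebraMap (VarRing n) _ d), mul_assoc, h1,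
      mul_one]
  choose T hT using hrd
  let ψ₀ : MvPolynomial ι ℚ →ₐ[ℚ] Localization.Away d :=
    MvPolynomial.aeval fun i => T (some i)
  have hψ₀ : (toFun d hd).comp ψ₀.toRingHom =
      Φ.comp (algebraMap _ (FractionRing (MvPolynomial ι ℚ))) :=
    MvPolynomial.ringHom_ext (fun r => (DFunLike.congr_fun (Subsingleton.elim
      (((toFun d hd).comp ψ₀.toRingHom).comp MvPolynomial.C)
      ((Φ.comp (algebraMap _ (FractionRing (MvPolynomial ι ℚ)))).comp MvPolynomial.C)) r))
      fun i => by
        show toFun d hd (ψ₀ (MvPolynomial.X i)) = _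
        rw [MvPolynomial.aeval_X]
        exact hT (some i)
  have hu : IsUnit (ψ₀ s) := IsUnit.of_mul_eq_one (T none) (toFun_injective d hd (by
    rw [map_mul, map_one, hT none, show toFun d hd (ψ₀ s) = Φ (algebraMap _ _ s) from
      DFunLike.congr_fun hψ₀ s]
    exact mul_inv_cancel₀ hΦs))
  let ψ : Localization.Away s →+* Localization.Away d :=
    IsLocalization.Away.lift s (g := ψ₀.toRingHom) hu
  have hψ : (toFun d hd).comp ψ = Φs := by
    refine IsLocalization.ringHom_ext (Submonoid.powers s) (RingHom.ext fun A => ?_)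
    show toFun d hd (ψ (algebraMap _ _ A)) = Φs (algebraMap _ _ A)
    rw [hΦseq, IsLocalization.Away.lift_eq]
    exact DFunLike.congr_fun hψ₀ A
  have hΦsi : Function.Injective Φs := by
    refine (injective_iff_map_eq_zero _).2 fun z hz => ?_
    obtain ⟨⟨A, ⟨-, k, rfl⟩⟩, h⟩ := IsLocalization.surj (Submonoid.powers s) z
    have h1 := congrArg Φs h
    rw [map_mul, hz, zero_mul, hΦseq] at h1
    rw [IsFractionRing.to_map_eq_zero_iff.1 (Φ.injective (h1.symm.trans (map_zero _).symm)),
      map_zero] at h
    exact ((IsLocalization.map_units (M := Submonoid.powers s) _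
      ⟨s ^ k, k, rfl⟩).mul_left_eq_zero).1 h
  refine ⟨⟨d, s, hd, ψ, f, p, hfm, ?_, ?_, fun g => ?_, fun z => ?_⟩⟩
  · rw [← modByMonic_eq_zero_iff_dvd hfm]
    refine Polynomial.map_injective _ hΦsi ?_
    rw [map_modByMonic _ hfm, Polynomial.map_comp, Polynomial.map_zero, hp, hf,
      (modByMonic_eq_zero_iff_dvd rootPoly_monic).2 rootPoly_dvd]
  · refine Polynomial.map_injective _ (toFun_injective d hd) ?_
    rw [Polynomial.map_map, hψ, hf, rootPoly, Polynomial.map_prod]
    refine Finset.prod_congr rfl fun g _ => ?_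
    rw [Polynomial.map_sub, map_X, map_C, toFun_algebraMap]
    rfl
  · refine toFun_injective d hd ?_
    rw [toFun_algebraMap, ← eval₂_at_apply, toFun_algebraMap, ← eval_map, Polynomial.map_map, hψ,
      hp]
    exact stepPoly_eval g
  · rw [← RingHom.comp_apply, hψ]
    obtain ⟨⟨A, ⟨-, k, rfl⟩⟩, h⟩ := IsLocalization.surj (Submonoid.powers s) z
    have h1 := congrArg Φs h
    rw [map_mul, hΦseq, hΦseq] at h1
    have h2 := congrArg (shiftF n) h1
    rw [map_mul, hinv, hinv, ← h1] at h2
    refine mul_right_cancel₀ (fun h0 => ?_) h2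
    rw [map_pow, map_pow] at h0
    exact hΦs (pow_eq_zero_iff'.1 h0).1

end FA.NoetherProblem

end
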