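import Mathlib.NumberTheory.LegendreSymbol.QuadraticReciprocity
import Mathlib.RingTheory.ZMod.UnitsCyclic
import Mathlib.Data.Nat.Factorization.Induction
import Mathlib.Data.ZMod.Units

/-!
# Characters of order eight do not separate two from the squares

For odd `m` a homomorphism from the units modulo `m` to a cyclic group of order eight sends the
residue of `2` to an even element: at a prime power where it has order eight the prime is one modulo
eight, so that `2` is a square there.
-/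

set_option autoImplicit false

namespace FA.NoetherProblem

/-- The parity of an element of `ℤ / 8`. -/
def par8 : ZMod 8 →+* ZMod 2 := ZMod.castHom (by norm_num) (ZMod 2)

theorem eq_zero_of_par8_ne_zero :
    ∀ a c : ZMod 8, par8 c ≠ 0 → a * c = 0 → a = 0 := by decide

/-- The prime power case. -/
theorem par8_prime_pow {p k : ℕ} (hp : p.Prime) (hk : 0 < k) (hp2 : p ≠ 2)
    (χ : (ZMod (p ^ k))ˣ →* Multiplicative (ZMod 8)) {u : (ZMod (p ^ k))ˣ}
    (hu : (u : ZMod (p ^ k)) = 2) : par8 (Multiplicative.toAdd (χ u)) = 0 := by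
  have : Fact p.Prime := ⟨hp⟩
  have : NeZero (p ^ k) := ⟨pow_ne_zero _ hp.ne_zero⟩
  have : IsCyclic (ZMod (p ^ k))ˣ := ZMod.isCyclic_units_of_prime_pow p hp hp2 k
  obtain ⟨g, hg⟩ := IsCyclic.exists_monoid_generator (α := (ZMod (p ^ k))ˣ)
  obtain ⟨j, rfl⟩ := hg u
  beta_reduce at hu ⊢
  rw [map_pow, toAdd_pow, map_nsmul]
  by_cases hc : par8 (Multiplicative.toAdd (χ g)) = 0
  · rw [hc, smul_zero]
  have h8 : 8 ∣ p - 1 := by
    have h := congrArg (fun z => Multiplicative.toAdd (χ z)) (pow_orderOf_eq_one g)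
    simp only [map_pow, toAdd_pow, map_one, toAdd_one, nsmul_eq_mul] at h
    have h1 := (ZMod.natCast_eq_zero_iff (orderOf g) 8).1 (eq_zero_of_par8_ne_zero _ _ hc h)
    have h2 := h1.trans (orderOf_dvd_natCard g)
    rw [Nat.card_eq_fintype_card, ZMod.card_units_eq_totient, Nat.totient_prime_pow hp hk] at h2
    exact (Nat.Coprime.dvd_of_dvd_mul_left ((Nat.Coprime.pow_right _
      (((Nat.coprime_primes hp Nat.prime_two).2 hp2).symm.pow_left 3))) h2)
  have hsq : IsSquare (2 : ZMod p) := (ZMod.exists_sq_eq_two_iff hp2).2 (Or.inl (by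
    have := hp.two_le; omega))
  obtain ⟨c, hc2⟩ := hsq
  let r : (ZMod (p ^ k))ˣ →* (ZMod p)ˣ := ZMod.unitsMap (dvd_pow_self p hk.ne')
  have hr : ((r g ^ j : (ZMod p)ˣ) : ZMod p) = 2 := by
    rw [← map_pow]
    show ((Units.map _ (g ^ j) : (ZMod p)ˣ) : ZMod p) = 2
    rw [Units.coe_map, hu]
    exact map_ofNat (ZMod.castHom (dvd_pow_self p hk.ne') (ZMod p)) 2
  have hc0 : c ≠ 0 := fun h => by rw [h, mul_zero] at hc2; exact (r g ^ j).ne_zero (hr.trans hc2)
  obtain ⟨z, hz⟩ := ZMod.unitsMap_surjective (dvd_pow_self p hk.ne') (Units.mk0 c hc0)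
  obtain ⟨i, rfl⟩ := hg z
  have he : r g ^ j = r g ^ (2 * i) := Units.ext (by
    rw [hr, hc2, two_mul, pow_add, Units.val_mul, ← map_pow]
    exact (congrArg (fun x : (ZMod p)ˣ => (x : ZMod p) * x) hz).symm)
  have hord : orderOf (r g) = p - 1 := by
    rw [← ZMod.card_units p, ← Nat.card_eq_fintype_card]
    refine orderOf_eq_card_of_forall_mem_zpowers fun y => ?_
    obtain ⟨x, rfl⟩ := ZMod.unitsMap_surjective (dvd_pow_self p hk.ne') y
    obtain ⟨l, rfl⟩ := hg x
    exact ⟨(l : ℤ), (zpow_natCast (r g) l).trans (map_pow r g l).symm⟩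
  have hmod := pow_eq_pow_iff_modEq.1 he
  rw [hord] at hmod
  have h2j := hmod.of_dvd (show 2 ∣ p - 1 by omega)
  have hj : (j : ZMod 2) = 0 := by
    rw [(ZMod.natCast_eq_natCast_iff j (2 * i) 2).2 h2j, Nat.cast_mul, ZMod.natCast_self, zero_mul]
  rw [nsmul_eq_mul, hj, zero_mul]

/-- **A character of order eight sends two to an even element.** -/
theorem par8_two : ∀ m : ℕ, Odd m → ∀ (χ : (ZMod m)ˣ →* Multiplicative (ZMod 8)) (u : (ZMod m)ˣ),
    (u : ZMod m) = 2 → par8 (Multiplicative.toAdd (χ u)) = 0 := by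
  intro m
  induction m using Nat.recOnPosPrimePosCoprime with
  | prime_pow p k hp hk =>
    intro hodd χ u hu
    exact par8_prime_pow hp hk (fun h => by
      subst h
      exact (Nat.not_odd_iff_even.2 (Even.pow_of_ne_zero even_two hk.ne')) hodd) χ hu
  | zero => intro h; exact absurd h (by decide)
  | one =>
    intro _ χ u _
    rw [Subsingleton.elim u 1, map_one, toAdd_one, map_zero]
  | coprime a b ha hb hab iha ihb =>
    intro hodd χ u hu
    obtain ⟨hoa, hob⟩ := Nat.odd_mul.1 hodd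
    let e : (ZMod (a * b))ˣ ≃* (ZMod a)ˣ × (ZMod b)ˣ :=
      (Units.mapEquiv (ZMod.chineseRemainder hab).toMulEquiv).trans MulEquiv.prodUnits
    have h1 := iha hoa (χ.comp (e.symm.toMonoidHom.comp (MonoidHom.inl _ _))) (e u).1 (by
      show (ZMod.chineseRemainder hab (u : ZMod (a * b))).1 = 2
      rw [hu, map_ofNat]; rfl)
    have h2 := ihb hob (χ.comp (e.symm.toMonoidHom.comp (MonoidHom.inr _ _))) (e u).2 (by
      show (ZMod.chineseRemainder hab (u : ZMod (a * b))).2 = 2
      rw [hu, map_ofNat]; rfl)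
    have hsplit : u = e.symm ((e u).1, 1) * e.symm (1, (e u).2) := by
      rw [← map_mul, Prod.mk_mul_mk, mul_one, one_mul, e.symm_apply_apply]
    rw [hsplit, map_mul, toAdd_mul, map_add]
    simp only [MonoidHom.comp_apply, MonoidHom.inl_apply, MonoidHom.inr_apply,
      MulEquiv.coe_toMonoidHom] at h1 h2
    rw [h1, h2, add_zero]

end FA.NoetherProblem
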